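import Fermat.Agent.MR.Eis.TBar
import Fermat.Agent.MR.Eis.Defs
import Fermat.Agent.GAL.FF.RH.Fibre

/-!
# S41 / Graph / Deg : the two degeneracy maps `alphaB, betaB : E k M → E k (M l)` in any characteristic prime to `M l`

(= sub-block N4 of NODES, also used by the concrete instantiation of GRAPH.)

* `finiteAlong_alphaB`, `integral_alphaB`, `isSeparable_alphaB`, `finrankAlong_alphaB`;
* `finiteAlong_betaB`, `integral_betaB`, `isSeparable_betaB`;
* `fundamentalIdentityAlong_alphaB`, `fundamentalIdentityAlong_betaB`;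
* `finrankAlong_betaB_le : deg betaB ≤ deg alphaB`.
-/

set_option autoImplicit false
set_option linter.unusedSectionVars false
set_option linter.style.haveILetI false

noncomputable section

namespace Fermat.Agent.S41.Graph

open AlgebraicCurve ModularCurve Fermat.Agent.GAL Fermat.Agent.GAL.Igusa Fermat.Agent.MR.Eis
  Fermat.Agent.Lib.RR IntermediateField Polynomial

variable (k : Type) [Field k] (M l : ℕ) [NeZero M] [NeZero l]

/-! ### `alphaB` -/

theorem finiteAlong_alphaB (h : ((M * l : ℕ) : k) ≠ 0) : FiniteAlong k (alphaB k M l) :=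
  (tower_spec k (dvd_mul_right M l) h).2.2.1

theorem integral_alphaB (h : ((M * l : ℕ) : k) ≠ 0) : (alphaB k M l).toRingHom.IsIntegral :=
  RingHom.IsIntegral.of_finite (finiteAlong_alphaB k M l h)

theorem isSeparable_alphaB (h : ((M * l : ℕ) : k) ≠ 0) :
    letI := algebraAlong (alphaB k M l)
    Algebra.IsSeparable (E k M) (E k (M * l)) :=
  (tower_spec k (dvd_mul_right M l) h).2.2.2.1

theorem finrankAlong_alphaB (h : ((M * l : ℕ) : k) ≠ 0) :
    finrankAlong k (alphaB k M l) * dedekindPsi M = dedekindPsi (M * l) :=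
  (tower_spec k (dvd_mul_right M l) h).2.2.2.2

theorem fundamentalIdentityAlong_alphaB [IsAlgClosed k] [IsFF k (E k M)] [IsFF k (E k (M * l))]
    (h : ((M * l : ℕ) : k) ≠ 0) :
    FundamentalIdentityAlong k (alphaB k M l) (integral_alphaB k M l h) := by
  letI := algebraAlong (alphaB k M l)
  haveI := isScalarTower_along (alphaB k M l)
  haveI : Module.Finite (E k M) (E k (M * l)) := finiteAlong_alphaB k M l h
  haveI : Algebra.IsSeparable (E k M) (E k (M * l)) := isSeparable_alphaB k M l h
  exact FF.instFundamentalIdentity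

/-! ### `betaB` -/

theorem betaB_eq_betaBar : betaB k M l = betaBar k M l := rfl

theorem finiteAlong_betaB (h : ((M * l : ℕ) : k) ≠ 0) : FiniteAlong k (betaB k M l) :=
  finiteAlong_betaBar k M l h

theorem integral_betaB (h : ((M * l : ℕ) : k) ≠ 0) : (betaB k M l).toRingHom.IsIntegral :=
  RingHom.IsIntegral.of_finite (finiteAlong_betaB k M l h)

/-- `Φ_p(j(q^d), j(q^{pd})) = 0` (the root `b = 0` of `step_factor`). -/
theorem Phi_jd_swap {p : ℕ} [NeZero p] {Φ U G : ℤ[X][X]} {m : ℕ} {c : ℤ}
    (hB : S28.BData p Φ U G m c) (hpK : (p : AlgebraicClosure k) ≠ 0) (d : ℕ) (hd : d ≠ 0) :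
    (Φ.map (S28.evY (S28.jd k (p * d)))).eval (S28.jd k d) = 0 := by
  apply S28.iota_injective k
  rw [S28.map_eval_evY, S28.iota_jd k d hd, S28.iota_jd k (p * d) (mul_ne_zero (NeZero.ne p) hd),
    ← S28.Pd_pow k p d hd, map_zero]
  obtain ⟨ζ, hζ⟩ := S28.exists_prim (p := p) hpK
  rw [S28.step_factor hB ζ hζ (S28.Pd k d), eval_mul, eval_prod]
  apply mul_eq_zero_of_right
  apply Finset.prod_eq_zero (Finset.mem_range.mpr (Nat.pos_of_ne_zero (NeZero.ne p)))
  rw [pow_zero, S28.Par.tw_one, eval_sub, eval_X, eval_C, sub_self]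

theorem isSeparable_betaB (hl : l.Prime) (h : ((M * l : ℕ) : k) ≠ 0) :
    letI := algebraAlong (betaB k M l)
    Algebra.IsSeparable (E k M) (E k (M * l)) := by
  letI := algebraAlong (betaB k M l)
  haveI := isScalarTower_along (betaB k M l)
  obtain ⟨Φ, U, G, m, c, hB⟩ := S28.statementB S28.statementA l hl
  have hlK : (l : AlgebraicClosure k) ≠ 0 :=
    S28.natCast_ne_zero_of_dvd k (M * l) h (dvd_mul_left l M)
  -- the generators are separable
  have hgen : ∀ (d : ℕ) (hd : d ∣ M * l),
      IsSeparable (E k M) (⟨S28.jd k d, by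
        haveI : NeZero d := ⟨S28.ne_zero_of_dvd (M * l) hd⟩
        rw [S28.jd_eq]
        exact jqModCd_mem_full k (M * l) hd⟩ : E k (M * l)) := by
    intro d hd
    have hd0 : d ≠ 0 := S28.ne_zero_of_dvd (M * l) hd
    by_cases hld : l ∣ d
    · obtain ⟨d', rfl⟩ := hld
      have hd' : d' ∣ M := by
        rw [mul_comm M l] at hd
        exact Nat.dvd_of_mul_dvd_mul_left hl.pos hd
      have hd'0 : d' ≠ 0 := S28.ne_zero_of_dvd M hd'
      haveI : NeZero d' := ⟨hd'0⟩
      have hmem : S28.jd k d' ∈ modularFunctionFieldFullC k M := by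
        rw [S28.jd_eq]
        exact jqModCd_mem_full k M hd'
      have heq : (⟨S28.jd k (l * d'), by
          haveI : NeZero (l * d') := ⟨hd0⟩
          rw [S28.jd_eq]
          exact jqModCd_mem_full k (M * l) hd⟩ : E k (M * l)) =
          algebraMap (E k M) (E k (M * l)) ⟨S28.jd k d', hmem⟩ := by
        apply Subtype.ext
        haveI : NeZero (l * d') := ⟨hd0⟩
        change S28.jd k (l * d') = qExpand k l (S28.jd k d')
        rw [S28.jd_eq, S28.jd_eq, qExpand_qExpand]
      rw [heq]
      exact isSeparable_algebraMap _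
    · have hdM : d ∣ M :=
        (Nat.Coprime.symm ((Nat.Prime.coprime_iff_not_dvd hl).mpr hld)).dvd_of_dvd_mul_right hd
      haveI : NeZero d := ⟨hd0⟩
      have hmem : S28.jd k d ∈ modularFunctionFieldFullC k M := by
        rw [S28.jd_eq]
        exact jqModCd_mem_full k M hdM
      set y : E k M := ⟨S28.jd k d, hmem⟩ with hy
      set x : E k (M * l) := ⟨S28.jd k d, by
        rw [S28.jd_eq]
        exact jqModCd_mem_full k (M * l) hd⟩ with hx
      have hmap : ((Φ.map (S28.evY y)).map (algebraMap (E k M) (E k (M * l)))).map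
          (algebraMap (E k (M * l)) (LaurentSeries k)) = Φ.map (S28.evY (S28.jd k (l * d))) := by
        rw [S28.map_map_evY, S28.map_map_evY]
        congr 2
        haveI : NeZero (l * d) := ⟨mul_ne_zero hl.ne_zero hd0⟩
        change qExpand k l (S28.jd k d) = S28.jd k (l * d)
        rw [S28.jd_eq, S28.jd_eq, qExpand_qExpand]
      have hsep : (Φ.map (S28.evY y)).Separable := by
        rw [← Polynomial.separable_map (algebraMap (E k M) (E k (M * l))),
          ← Polynomial.separable_map (algebraMap (E k (M * l)) (LaurentSeries k)), hmap]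
        exact S28.Phi_jd_sep k hB hl hlK (l * d) (mul_ne_zero hl.ne_zero hd0)
      have hroot : aeval x (Φ.map (S28.evY y)) = 0 := by
        apply (algebraMap (E k (M * l)) (LaurentSeries k)).injective
        rw [aeval_def, ← eval_map, ← eval_map_apply, hmap, map_zero]
        exact Phi_jd_swap k hB hlK d hd0
      exact hsep.of_dvd (minpoly.dvd _ _ hroot)
  -- the separable closure is everything
  have htop : modularFunctionFieldFullC k (M * l) ≤
      ((separableClosure (E k M) (E k (M * l))).restrictScalars k).map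
        (modularFunctionFieldFullC k (M * l)).val := by
    refine IntermediateField.adjoin_le_iff.mpr ?_
    rintro _ ⟨d, hne, hd, rfl⟩
    refine ⟨⟨S28.jd k d, by
      rw [S28.jd_eq]
      exact jqModCd_mem_full k (M * l) hd⟩, ?_, ?_⟩
    · exact mem_separableClosure_iff.mpr (hgen d hd)
    · exact S28.jd_eq k d
  refine ⟨fun x => ?_⟩
  obtain ⟨x', hx', hxx⟩ := htop x.2
  have : x' = x := Subtype.ext hxx
  rw [← this]
  exact mem_separableClosure_iff.mp hx'

theorem fundamentalIdentityAlong_betaB [IsAlgClosed k] [IsFF k (E k M)] [IsFF k (E k (M * l))]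
    (hl : l.Prime) (h : ((M * l : ℕ) : k) ≠ 0) :
    FundamentalIdentityAlong k (betaB k M l) (integral_betaB k M l h) := by
  letI := algebraAlong (betaB k M l)
  haveI := isScalarTower_along (betaB k M l)
  haveI : Module.Finite (E k M) (E k (M * l)) := finiteAlong_betaB k M l h
  haveI : Algebra.IsSeparable (E k M) (E k (M * l)) := isSeparable_betaB k M l hl h
  exact FF.instFundamentalIdentity

section DegAbs

variable {k L : Type*} [Field k] [Field L] [Algebra k L]

/-- the degree of `φ : S → T` as a relative degree inside `L`. -/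
theorem Deg_finrank_toAlgebra (S T : IntermediateField k L) (φ : S →ₐ[k] T) :
    @Module.finrank S T _ _ (φ.toRingHom.toAlgebra).toModule =
      relfinrank ((T.val.comp φ).fieldRange) T := by
  let _ : Algebra S T := φ.toRingHom.toAlgebra
  have h1 : Module.finrank S T = Module.finrank φ.fieldRange T := by
    refine Algebra.finrank_eq_of_equiv_equiv
      ((AlgHom.equivFieldRange φ : S ≃ₐ[k] φ.fieldRange) : S ≃+* φ.fieldRange)
      (RingEquiv.refl T) ?_
    ext a
    rfl
  rw [h1, ← relfinrank_top_right, ← relfinrank_map_map _ _ T.val, AlgHom.map_fieldRange,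
    ← AlgHom.fieldRange_eq_map, fieldRange_val]

theorem Deg_finrank_adjoin (S : IntermediateField k L) (x : S) :
    Module.finrank k⟮x⟯ S = relfinrank k⟮(x : L)⟯ S := by
  rw [← relfinrank_top_right, ← relfinrank_map_map _ _ S.val, adjoin_map, Set.image_singleton,
    ← AlgHom.fieldRange_eq_map, fieldRange_val]
  rfl

/-- the tower computation. -/
theorem Deg_abs (V : L →ₐ[k] L) (j : L) (EM El EMl : IntermediateField k L)
    (hjM : j ∈ EM) (hjl : j ∈ El) (hVl : V j ∈ El) (hM : EM ≤ EMl) (hl : El ≤ EMl)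
    (hV : EM.map V ≤ EMl) (ha : relfinrank k⟮j⟯ EM ≠ 0)
    (hle : relfinrank k⟮V j⟯ El ≤ relfinrank k⟮j⟯ El) :
    relfinrank (EM.map V) EMl ≤ relfinrank EM EMl := by
  have hjM' : k⟮j⟯ ≤ EM := by rwa [adjoin_simple_le_iff]
  have hjl' : k⟮j⟯ ≤ El := by rwa [adjoin_simple_le_iff]
  have hVl' : k⟮V j⟯ ≤ El := by rwa [adjoin_simple_le_iff]
  have hmap : (k⟮j⟯).map V = k⟮V j⟯ := by rw [adjoin_map, Set.image_singleton]
  have hVM : k⟮V j⟯ ≤ EM.map V := by
    rw [← hmap]
    exact map_mono V hjM'
  have e1 := relfinrank_mul_relfinrank hjM' hM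
  have e2 := relfinrank_mul_relfinrank hjl' hl
  have e3 := relfinrank_mul_relfinrank hVl' hl
  have e4 := relfinrank_mul_relfinrank hVM hV
  have e5 : relfinrank k⟮V j⟯ (EM.map V) = relfinrank k⟮j⟯ EM := by
    rw [← hmap, relfinrank_map_map]
  rw [e5] at e4
  have e6 : relfinrank k⟮j⟯ EM * relfinrank (EM.map V) EMl ≤
      relfinrank k⟮j⟯ EM * relfinrank EM EMl := by
    rw [e4, e1, ← e3, ← e2]
    exact Nat.mul_le_mul_right _ hle
  exact Nat.le_of_mul_le_mul_left e6 (Nat.pos_of_ne_zero ha)

/-- `[k(x, y) : k(y)] ≤ deg P` if `P(x) = 0`, `P` monic over `k(y)`. -/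
theorem Deg_relfinrank_le (x y : L) (El : IntermediateField k L) (hEl : El = adjoin k {y, x})
    (P : (k⟮y⟯)[X]) (hP : P.Monic) (hroot : aeval x P = 0) :
    relfinrank k⟮y⟯ El ≤ P.natDegree := by
  have hle : k⟮y⟯ ≤ El := by
    rw [hEl]
    exact adjoin.mono k _ _ (by simp)
  have hext : extendScalars hle = (k⟮y⟯)⟮x⟯ := by
    apply restrictScalars_injective k
    rw [extendScalars_restrictScalars, adjoin_adjoin_left, hEl]
    rfl
  have hint : IsIntegral k⟮y⟯ x := ⟨P, hP, hroot⟩
  rw [relfinrank_eq_finrank_of_le hle, hext, adjoin.finrank hint]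
  exact natDegree_le_of_dvd (minpoly.dvd _ _ hroot) hP.ne_zero

end DegAbs

theorem Deg_natDegree_Phi {p : ℕ} [NeZero p] {Φ U G : ℤ[X][X]} {m : ℕ} {c : ℤ}
    (hB : S28.BData p Φ U G m c) : Φ.natDegree = p + 1 := by
  have hζ0 := Complex.isPrimitiveRoot_exp p (NeZero.ne p)
  have hζ : IsPrimitiveRoot (hζ0.isUnit (NeZero.ne p)).unit p :=
    IsPrimitiveRoot.coe_units_iff.1 (by rw [IsUnit.unit_spec]; exact hζ0)
  have hfac := (hB.2.2.2.2.2.2 ℂ _ hζ).1
  have hQmonic : (∏ b ∈ Finset.range p,
      (X - C (S28.rootFin (hζ0.isUnit (NeZero.ne p)).unit b))).Monic :=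
    monic_prod_of_monic _ _ fun b _ => monic_X_sub_C _
  rw [← hB.2.1.natDegree_map (S28.evBase p ℂ), hfac, (monic_X_sub_C _).natDegree_mul hQmonic,
    natDegree_X_sub_C, natDegree_prod_of_monic _ _ (fun b _ => monic_X_sub_C _)]
  simp [add_comm]

theorem Deg_dedekindPsi_prime {q : ℕ} (hq : q.Prime) : dedekindPsi q = q + 1 := by
  have h := Lib.Gamma0Cosets.dedekindPsi_prime_pow hq 0
  rwa [zero_add, pow_one, pow_zero] at h

theorem Deg_full_prime (hl : l.Prime) :
    modularFunctionFieldFullC k l = adjoin k {qExpand k l (jqModC k), jqModC k} := by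
  rw [modularFunctionFieldFullC]
  congr 1
  ext x
  constructor
  · rintro ⟨d, hd, hdl, rfl⟩
    rcases (Nat.dvd_prime hl).1 hdl with rfl | rfl
    · right
      rw [Set.mem_singleton_iff, qExpand_one_apply]
    · left
      rfl
  · rintro (rfl | hx)
    · exact mem_divisorExpansionsC k l dvd_rfl
    · rw [Set.mem_singleton_iff] at hx
      rw [hx]
      have := mem_divisorExpansionsC k l (one_dvd l)
      rwa [qExpand_one_apply] at this

/-- `[E_l : k(j_l)] ≤ l + 1`. -/
theorem Deg_relfinrank_prime_le (hl : l.Prime) (hlk : ((l : ℕ) : k) ≠ 0) :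
    relfinrank k⟮qExpand k l (jqModC k)⟯ (modularFunctionFieldFullC k l) ≤ l + 1 := by
  obtain ⟨Φ, U, G, m, c, hB⟩ := S28.statementB_iff.1 (S28.statementB S28.statementA) l hl
  have hlK : (l : AlgebraicClosure k) ≠ 0 := by
    intro h0
    apply hlk
    apply (algebraMap k (AlgebraicClosure k)).injective
    rw [map_natCast, h0, map_zero]
  have hroot := Phi_jd_swap k hB hlK 1 one_ne_zero
  rw [mul_one, S28.jd_one, S28.jd_eq] at hroot
  have hmem : qExpand k l (jqModC k) ∈ k⟮qExpand k l (jqModC k)⟯ := mem_adjoin_simple_self k _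
  have h := Deg_relfinrank_le (jqModC k) (qExpand k l (jqModC k)) (modularFunctionFieldFullC k l)
    (Deg_full_prime k l hl)
    (Φ.map (S28.evY (⟨_, hmem⟩ : k⟮qExpand k l (jqModC k)⟯))) (hB.2.1.map _) (by
      rw [aeval_def, eval₂_eq_eval_map, S28.map_map_evY]
      exact hroot)
  rwa [hB.2.1.natDegree_map, Deg_natDegree_Phi hB] at h

/-- `[E k (M l) : β (E k M)] ≤ [E k (M l) : E k M]`.
PROOF (tower laws inside `L = LaurentSeries k`, all fields are `IntermediateField k L`; use `IntermediateField.relfinrank`,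
`relfinrank_mul_relfinrank`, `relfinrank_map_map`, `relfinrank_eq_finrank_of_le`, or `Module.finrank_mul_finrank` with explicit algebras).
`V := qExpandAlgHomC k l`, `A₀ := k⟮j⟯` (`j = jqModC k`), `A₁ := A₀.map V = k⟮j_l⟯`, `E_N := modularFunctionFieldFullC k N`, `B := E_M.map V ≤ E_{Ml}`.
(1) `[E_N : A₀] = dedekindPsi N` for `N = M, l, M l` (`finrank_jb`; `(N : k) ≠ 0` follows from `h`);
(2) `[B : A₁] = [E_M : A₀]` (`relfinrank_map_map`);
(3) `[E_l : A₁] ≤ l + 1 = dedekindPsi l`: `E_l = A₁⟮j⟯` and `j` is a root of the monic polynomial `Φ.map (evY j_l)` of degree `l + 1`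
    (`Phi_jd_swap` with `d = 1`, `hB.2.1 : Φ.Monic`; the degree of `Φ` from `S28.step_factor`/`hB.2.2.2.2.2.2`; or avoid `l + 1`: `[E_l : A₀] = natDegree Φ` is not
    needed, only `[E_l : A₁] ≤ natDegree Φ` and `natDegree Φ ≤ [E_l : A₀]`... choose the cheapest route; `dedekindPsi l = l + 1` for `l` prime: `Nat.Prime.divisors`);
(4) `[E_{Ml} : A₁] = [E_{Ml} : E_l] [E_l : A₁] = [E_{Ml} : B] [B : A₁]`, `[E_{Ml} : A₀] = [E_{Ml} : E_l] [E_l : A₀]`;
so `d₂ ψ(M) ≤ ψ(M l) = d₁ ψ(M)` (`finrankAlong_alphaB`), `ψ(M) > 0`.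
(5) `finrankAlong k (betaB k M l) = [E_{Ml} : B]`: `Algebra.finrank_eq_of_equiv_equiv` with `E k M ≃ B` (`AlgEquiv.ofInjective`/`IntermediateField.equivMap`). -/
theorem finrankAlong_betaB_le (hl : l.Prime) (h : ((M * l : ℕ) : k) ≠ 0) :
    finrankAlong k (betaB k M l) ≤ finrankAlong k (alphaB k M l) := by
  have hMk : ((M : ℕ) : k) ≠ 0 := by
    intro h0
    apply h
    rw [Nat.cast_mul, h0, zero_mul]
  have hlk : ((l : ℕ) : k) ≠ 0 := by
    intro h0
    apply h
    rw [Nat.cast_mul, h0, mul_zero]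
  have hα : finrankAlong k (alphaB k M l) =
      relfinrank (modularFunctionFieldFullC k M) (modularFunctionFieldFullC k (M * l)) := by
    have h1 := Deg_finrank_toAlgebra (modularFunctionFieldFullC k M)
      (modularFunctionFieldFullC k (M * l)) (alphaB k M l)
    have h2 : (modularFunctionFieldFullC k (M * l)).val.comp (alphaB k M l) =
        (modularFunctionFieldFullC k M).val := by
      ext x
      rfl
    rw [h2, fieldRange_val] at h1
    exact h1
  have hβ : finrankAlong k (betaB k M l) =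
      relfinrank ((modularFunctionFieldFullC k M).map (qExpandAlgHomC k l))
        (modularFunctionFieldFullC k (M * l)) := by
    have h1 := Deg_finrank_toAlgebra (modularFunctionFieldFullC k M)
      (modularFunctionFieldFullC k (M * l)) (betaB k M l)
    have h2 : (modularFunctionFieldFullC k (M * l)).val.comp (betaB k M l) =
        (qExpandAlgHomC k l).comp (modularFunctionFieldFullC k M).val := by
      ext x
      rfl
    rw [h2, fieldRange_comp_val] at h1
    exact h1
  rw [hα, hβ]
  have hψM : relfinrank k⟮jqModC k⟯ (modularFunctionFieldFullC k M) = dedekindPsi M := by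
    rw [← finrank_jb k M hMk, Deg_finrank_adjoin]
    rfl
  have hψl : relfinrank k⟮jqModC k⟯ (modularFunctionFieldFullC k l) = dedekindPsi l := by
    rw [← finrank_jb k l hlk, Deg_finrank_adjoin]
    rfl
  refine Deg_abs (qExpandAlgHomC k l) (jqModC k) (modularFunctionFieldFullC k M)
    (modularFunctionFieldFullC k l) (modularFunctionFieldFullC k (M * l))
    (jqModC_mem_full k M) (jqModC_mem_full k l) (jqModCd_mem_full k l dvd_rfl)
    (full_degeneracyC_le k (dvd_mul_right M l)) (full_degeneracyC_le k (dvd_mul_left l M))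
    (full_degeneracyC_map_le k M l) ?_ ?_
  · rw [hψM]
    intro h0
    have h1 := finrankAlong_alphaB k M l h
    rw [h0, mul_zero] at h1
    have h2 := finrank_jb k (M * l) h
    rw [← h1] at h2
    haveI := finiteDimensional_jb k (M * l) h
    exact (Module.finrank_pos (R := k⟮jb k (M * l)⟯) (M := E k (M * l))).ne' h2
  · rw [hψl, Deg_dedekindPsi_prime hl]
    exact Deg_relfinrank_prime_le k l hl hlk

end Fermat.Agent.S41.Graph
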