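import Fermat.Agent.S41.Graph.Main
import Fermat.Agent.S41.Graph.Deg
import Fermat.Agent.S41.Tors.ViaS27

/-!
# S41 / Graph / Conc : the concrete form of GRAPH

`F = E k N`, `F' = E k (N l)`, `α = alphaB k N l`, `β = betaB k N l`.

* `const_on_nodes_E`   : `Graph.const_on_nodes` for these fields (`Pic⁰` torsion still a hypothesis, any `X`, `s`);
* `const_on_nodes_mul` : `δ : Place → k` with `δ (z|α) = κ * δ (z|β) ^ e`, `e = ± 1`;
* `const_on_nodes_kk`, `const_on_nodes_kk_mul` : the same for `k = kk A`, `A ∣ r`, with TORS plugged in.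
-/

set_option autoImplicit false
set_option linter.unusedSectionVars false

noncomputable section

namespace Fermat.Agent.S41.Graph

open AlgebraicCurve ModularCurve Fermat.Agent.GAL Fermat.Agent.GAL.Igusa Fermat.Agent.MR.Eis
  Fermat.Agent.Lib.RR

section Above

variable {k F F' : Type*} [Field k] [Field F] [Field F'] [Algebra k F] [Algebra k F']
  [IsFF k F] [IsFF k F'] [IsAlgClosed k]

/-- there is a place above every place. -/
theorem exists_restrictAlong_eq (φ : F →ₐ[k] F') (hφ : φ.toRingHom.IsIntegral) (n : ℤ) (hn : n ≠ 0)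
    (hd : ∀ D : Divisor k F, Divisor.degree (Divisor.pullbackAlong φ hφ D) = n * Divisor.degree D)
    (P : Place k F) : ∃ z : Place k F', z.restrictAlong φ hφ = P := by
  classical
  have hdeg := hd (pt P)
  rw [degree_pt, GAL.RED.deg_eq_one, Nat.cast_one, mul_one] at hdeg
  have hne : Divisor.pullbackAlong φ hφ (pt P) ≠ 0 := by
    intro h0
    rw [h0, map_zero] at hdeg
    exact hn hdeg.symm
  obtain ⟨w, hw⟩ := Finsupp.ne_iff.1 hne
  refine ⟨w, ?_⟩
  rw [Divisor.pullbackAlong_apply, Finsupp.single_apply] at hw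
  by_contra hcon
  rw [if_neg (fun e => hcon e.symm), mul_zero] at hw
  exact hw rfl

end Above

section General

variable (k : Type) [Field k] [IsAlgClosed k] (N l : ℕ) [NeZero N] [NeZero l]
  [IsFF k (E k N)] [IsFF k (E k (N * l))]

theorem coe_algebraMap_E (M : ℕ) (c : k) :
    ((algebraMap k (E k M) c : E k M) : LaurentSeries k) = HahnSeries.C c := by
  rw [IntermediateField.coe_algebraMap_apply, algebraMap_laurentSeries_eq_single]
  rfl

theorem degree_pullbackAlong_alphaB (h : ((N * l : ℕ) : k) ≠ 0)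
    (hα : (alphaB k N l).toRingHom.IsIntegral) (D : Divisor k (E k N)) :
    Divisor.degree (Divisor.pullbackAlong (alphaB k N l) hα D) =
      (finrankAlong k (alphaB k N l) : ℤ) * Divisor.degree D :=
  Divisor.degree_pullbackAlong _ hα (fundamentalIdentityAlong_alphaB k N l h) D

theorem degree_pullbackAlong_betaB (hl : l.Prime) (h : ((N * l : ℕ) : k) ≠ 0)
    (hβ : (betaB k N l).toRingHom.IsIntegral) (D : Divisor k (E k N)) :
    Divisor.degree (Divisor.pullbackAlong (betaB k N l) hβ D) =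
      (finrankAlong k (betaB k N l) : ℤ) * Divisor.degree D :=
  Divisor.degree_pullbackAlong _ hβ (fundamentalIdentityAlong_betaB k N l hl h) D

theorem finrankAlong_alphaB_ne_zero (h : ((N * l : ℕ) : k) ≠ 0) :
    (finrankAlong k (alphaB k N l) : ℤ) ≠ 0 := by
  have hpos : 0 < finrankAlong k (alphaB k N l) := by
    let _ := algebraAlong (alphaB k N l)
    have : Module.Finite (E k N) (E k (N * l)) := finiteAlong_alphaB k N l h
    exact Module.finrank_pos
  exact_mod_cast hpos.ne'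

/-- **GRAPH** for the Igusa function fields (`Pic⁰` torsion as a hypothesis). -/
theorem const_on_nodes_E (hl : l.Prime) (h : ((N * l : ℕ) : k) ≠ 0)
    (hα : (alphaB k N l).toRingHom.IsIntegral) (hβ : (betaB k N l).toRingHom.IsIntegral)
    (hT : ∀ D : Divisor k (E k N), Divisor.degree D = 0 →
      ∃ m : ℕ, m ≠ 0 ∧ ∃ h : E k N, h ≠ 0 ∧ m • D = divOf h)
    {X : Type*} (S : Finset (Place k (E k N))) (ζ : Place k (E k N) → X) (s : X → X)
    (hs : Function.Injective s)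
    (hS : ∀ z : Place k (E k (N * l)),
      z.restrictAlong (alphaB k N l) hα ∈ S ↔ z.restrictAlong (betaB k N l) hβ ∈ S)
    (heα : ∀ z : Place k (E k (N * l)), z.restrictAlong (alphaB k N l) hα ∈ S →
      Place.ramificationIndexAlong (alphaB k N l) z = 1)
    (heβ : ∀ z : Place k (E k (N * l)), z.restrictAlong (betaB k N l) hβ ∈ S →
      Place.ramificationIndexAlong (betaB k N l) z = 1)
    (hζ : ∀ z : Place k (E k (N * l)), z.restrictAlong (alphaB k N l) hα ∈ S →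
      ζ (z.restrictAlong (betaB k N l) hβ) = s (ζ (z.restrictAlong (alphaB k N l) hα))) :
    ∀ P ∈ S, ∀ Q ∈ S, ζ P = ζ Q :=
  const_on_nodes (algebraMap (E k N) (LaurentSeries k)) (algebraMap (E k (N * l)) (LaurentSeries k))
    (coe_algebraMap_E k N) (coe_algebraMap_E k (N * l)) (alphaB k N l) (betaB k N l) hα hβ l
    hl.two_le (coe_alphaB k N l) (coe_betaB k N l) S ζ s hs hS heα heβ hζ _ _
    (finrankAlong_alphaB_ne_zero k N l h) (degree_pullbackAlong_alphaB k N l h hα)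
    (degree_pullbackAlong_betaB k N l hl h hβ) hT

/-- **GRAPH**, multiplicative form: `δ (z|α) = κ * δ (z|β) ^ e`, `e = ± 1`. -/
theorem const_on_nodes_mul (hl : l.Prime) (h : ((N * l : ℕ) : k) ≠ 0)
    (hα : (alphaB k N l).toRingHom.IsIntegral) (hβ : (betaB k N l).toRingHom.IsIntegral)
    (hT : ∀ D : Divisor k (E k N), Divisor.degree D = 0 →
      ∃ m : ℕ, m ≠ 0 ∧ ∃ h : E k N, h ≠ 0 ∧ m • D = divOf h)
    (S : Finset (Place k (E k N))) (δ : Place k (E k N) → k) (κ : k) (e : ℤ)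
    (he : e = 1 ∨ e = -1)
    (hS : ∀ z : Place k (E k (N * l)),
      z.restrictAlong (alphaB k N l) hα ∈ S ↔ z.restrictAlong (betaB k N l) hβ ∈ S)
    (heα : ∀ z : Place k (E k (N * l)), z.restrictAlong (alphaB k N l) hα ∈ S →
      Place.ramificationIndexAlong (alphaB k N l) z = 1)
    (heβ : ∀ z : Place k (E k (N * l)), z.restrictAlong (betaB k N l) hβ ∈ S →
      Place.ramificationIndexAlong (betaB k N l) z = 1)
    (hδ : ∀ z : Place k (E k (N * l)), z.restrictAlong (alphaB k N l) hα ∈ S →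
      δ (z.restrictAlong (alphaB k N l) hα) = κ * δ (z.restrictAlong (betaB k N l) hβ) ^ e) :
    ∀ P ∈ S, ∀ Q ∈ S, δ P = δ Q := by
  by_cases hκ : κ = 0
  · have h0 : ∀ P ∈ S, δ P = 0 := by
      intro P hP
      obtain ⟨z, rfl⟩ := exists_restrictAlong_eq (alphaB k N l) hα _
        (finrankAlong_alphaB_ne_zero k N l h) (degree_pullbackAlong_alphaB k N l h hα) P
      rw [hδ z hP, hκ, zero_mul]
    intro P hP Q hQ
    rw [h0 P hP, h0 Q hQ]
  rcases he with rfl | rfl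
  · refine const_on_nodes_E k N l hl h hα hβ hT S δ (fun a => κ⁻¹ * a)
      (mul_right_injective₀ (inv_ne_zero hκ)) hS heα heβ (fun z hz => ?_)
    rw [hδ z hz, zpow_one, inv_mul_cancel_left₀ hκ]
  · refine const_on_nodes_E k N l hl h hα hβ hT S δ (fun a => κ * a⁻¹)
      ((mul_right_injective₀ hκ).comp inv_injective) hS heα heβ (fun z hz => ?_)
    rw [hδ z hz, zpow_neg_one, mul_inv, inv_inv, mul_inv_cancel_left₀ hκ]

end General

section Residue

variable (A : ValuationSubring (AlgebraicClosure ℚ)) {r : ℕ} (hr : r.Prime) (hA : A.LiesOverPrime r)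
  (N l : ℕ) [NeZero N] [NeZero l] [IsAlgClosed (IsLocalRing.ResidueField ↥A)]
  [IsFF (IsLocalRing.ResidueField ↥A) (E (IsLocalRing.ResidueField ↥A) N)]
  [IsFF (IsLocalRing.ResidueField ↥A) (E (IsLocalRing.ResidueField ↥A) (N * l))]

set_option quotPrecheck false in
local notation "𝕜" => IsLocalRing.ResidueField ↥A

include hr hA in
theorem torsion_kk (D : Divisor 𝕜 (E 𝕜 N)) (hD : Divisor.degree D = 0) :
    ∃ m : ℕ, m ≠ 0 ∧ ∃ h : E 𝕜 N, h ≠ 0 ∧ m • D = divOf h := by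
  obtain ⟨n, hn, h, hh, hD'⟩ := Tors.pic0_torsion_E A hr hA N D hD
  exact ⟨n, hn.ne', h, hh, hD'⟩

include hr hA in
/-- **GRAPH** over the residue field of `A ∣ r`. -/
theorem const_on_nodes_kk (hl : l.Prime) (h : ((N * l : ℕ) : 𝕜) ≠ 0)
    (hα : (alphaB 𝕜 N l).toRingHom.IsIntegral) (hβ : (betaB 𝕜 N l).toRingHom.IsIntegral)
    {X : Type*} (S : Finset (Place 𝕜 (E 𝕜 N))) (ζ : Place 𝕜 (E 𝕜 N) → X) (s : X → X)
    (hs : Function.Injective s)
    (hS : ∀ z : Place 𝕜 (E 𝕜 (N * l)),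
      z.restrictAlong (alphaB 𝕜 N l) hα ∈ S ↔ z.restrictAlong (betaB 𝕜 N l) hβ ∈ S)
    (heα : ∀ z : Place 𝕜 (E 𝕜 (N * l)), z.restrictAlong (alphaB 𝕜 N l) hα ∈ S →
      Place.ramificationIndexAlong (alphaB 𝕜 N l) z = 1)
    (heβ : ∀ z : Place 𝕜 (E 𝕜 (N * l)), z.restrictAlong (betaB 𝕜 N l) hβ ∈ S →
      Place.ramificationIndexAlong (betaB 𝕜 N l) z = 1)
    (hζ : ∀ z : Place 𝕜 (E 𝕜 (N * l)), z.restrictAlong (alphaB 𝕜 N l) hα ∈ S →
      ζ (z.restrictAlong (betaB 𝕜 N l) hβ) = s (ζ (z.restrictAlong (alphaB 𝕜 N l) hα))) :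
    ∀ P ∈ S, ∀ Q ∈ S, ζ P = ζ Q :=
  const_on_nodes_E 𝕜 N l hl h hα hβ (torsion_kk A hr hA N) S ζ s hs hS heα heβ hζ

include hr hA in
/-- **GRAPH** over the residue field of `A ∣ r`, multiplicative form. -/
theorem const_on_nodes_kk_mul (hl : l.Prime) (h : ((N * l : ℕ) : 𝕜) ≠ 0)
    (hα : (alphaB 𝕜 N l).toRingHom.IsIntegral) (hβ : (betaB 𝕜 N l).toRingHom.IsIntegral)
    (S : Finset (Place 𝕜 (E 𝕜 N))) (δ : Place 𝕜 (E 𝕜 N) → 𝕜) (κ : 𝕜) (e : ℤ)
    (he : e = 1 ∨ e = -1)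
    (hS : ∀ z : Place 𝕜 (E 𝕜 (N * l)),
      z.restrictAlong (alphaB 𝕜 N l) hα ∈ S ↔ z.restrictAlong (betaB 𝕜 N l) hβ ∈ S)
    (heα : ∀ z : Place 𝕜 (E 𝕜 (N * l)), z.restrictAlong (alphaB 𝕜 N l) hα ∈ S →
      Place.ramificationIndexAlong (alphaB 𝕜 N l) z = 1)
    (heβ : ∀ z : Place 𝕜 (E 𝕜 (N * l)), z.restrictAlong (betaB 𝕜 N l) hβ ∈ S →
      Place.ramificationIndexAlong (betaB 𝕜 N l) z = 1)
    (hδ : ∀ z : Place 𝕜 (E 𝕜 (N * l)), z.restrictAlong (alphaB 𝕜 N l) hα ∈ S →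
      δ (z.restrictAlong (alphaB 𝕜 N l) hα) = κ * δ (z.restrictAlong (betaB 𝕜 N l) hβ) ^ e) :
    ∀ P ∈ S, ∀ Q ∈ S, δ P = δ Q :=
  const_on_nodes_mul 𝕜 N l hl h hα hβ (torsion_kk A hr hA N) S δ κ e he hS heα heβ hδ

end Residue

end Fermat.Agent.S41.Graph
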