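import Fermat.Agent.S15.Cusp.Const
import Fermat.Prelude.Def_ModularCurve_X0

/-!
# S41 / GRAPH : connectedness of the `l`-isogeny graph on the nodes, by `q`-expansions

Abstract form of step (6) of report 382 (helper7) = step (vii) of report 388 (helper16).

`F`, `F'` function fields over an algebraically closed field `k` with `q`-expansion embeddings `iF`, `iF'`;
`α β : F → F'` with `(α f)(q) = f(q)`, `(β f)(q) = f(q^l)`, `l ≥ 2`.
`S` a finite set of places of `F` ("nodes") such that a place `z` of `F'` lies over `S` via `α` iff it does via `β`,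
and then it is unramified for both maps.  `ζ` a function on places with `ζ (z|β) = s (ζ (z|α))` for an injective `s`.
If `Pic⁰ F` is torsion then `ζ` is constant on `S`.
-/

set_option autoImplicit false
set_option linter.unusedSectionVars false

noncomputable section

namespace Fermat.Agent.S41.Graph

open AlgebraicCurve ModularCurve Fermat.Agent.Lib.RR

/-! ## Laurent series -/

/-- A family of Laurent series with `H a (q) = c a * H (s a) (q ^ l)`, `l ≥ 2`, consists of constants. -/
theorem coeff_eq_zero_of_family {k X : Type*} [Field k] (l : ℕ) [NeZero l] (hl : 2 ≤ l) (s : X → X)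
    (H : X → LaurentSeries k) (c : X → k)
    (h : ∀ a, H a = HahnSeries.C (c a) * qExpand k l (H (s a))) :
    ∀ (n : ℕ) (j : ℤ), j.natAbs = n → j ≠ 0 → ∀ a, (H a).coeff j = 0 := by
  intro n
  induction n using Nat.strong_induction_on with
  | _ n ih =>
    intro j hj hj0 a
    rw [h a, HahnSeries.C_mul_eq_smul, HahnSeries.coeff_smul]
    by_cases hd : (l : ℤ) ∣ j
    · obtain ⟨i, rfl⟩ := hd
      rw [qExpand_coeff_mul]
      have hi0 : i ≠ 0 := by
        rintro rfl
        exact hj0 (mul_zero _)
      have hlt : i.natAbs < n := by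
        rw [← hj, Int.natAbs_mul, Int.natAbs_natCast]
        have : 0 < i.natAbs := Int.natAbs_pos.2 hi0
        nlinarith
      rw [ih _ hlt i rfl hi0 (s a), smul_zero]
    · rw [qExpand_coeff_of_not_dvd l _ hd, smul_zero]

theorem eq_C_of_family {k X : Type*} [Field k] (l : ℕ) [NeZero l] (hl : 2 ≤ l) (s : X → X)
    (H : X → LaurentSeries k) (c : X → k)
    (h : ∀ a, H a = HahnSeries.C (c a) * qExpand k l (H (s a))) (a : X) :
    H a = HahnSeries.C ((H a).coeff 0) := by
  ext j
  by_cases hj : j = 0
  · subst hj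
    exact (HahnSeries.coeff_single_same 0 _).symm
  · rw [coeff_eq_zero_of_family l hl s H c h _ j rfl hj a]
    exact (HahnSeries.coeff_single_of_ne hj).symm

/-! ## divisors -/

section Div

variable {k F F' : Type*} [Field k] [Field F] [Field F'] [Algebra k F] [Algebra k F']
  [IsFF k F] [IsFF k F'] [IsAlgClosed k]

theorem pullbackAlong_divOf' (φ : F →ₐ[k] F') (hφ : φ.toRingHom.IsIntegral) (u : F) :
    Divisor.pullbackAlong φ hφ (divOf u) = divOf (φ u) := by
  ext w
  rw [Divisor.pullbackAlong_apply, divOf_apply, divOf_apply, Place.ord_restrictAlong φ hφ]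

/-- the indicator divisor of a finite set of places. -/
def ind (T : Finset (Place k F)) : Divisor k F := ∑ P ∈ T, Finsupp.single P (1 : ℤ)

open Classical in
theorem ind_apply (T : Finset (Place k F)) (P : Place k F) : ind T P = if P ∈ T then 1 else 0 := by
  rw [ind, Finsupp.finsetSum_apply]
  simp only [Finsupp.single_apply]
  rw [Finset.sum_ite_eq' T P]

theorem degree_ind (T : Finset (Place k F)) : Divisor.degree (ind T) = (T.card : ℤ) := by
  rw [ind, map_sum]
  have h1 : ∀ P ∈ T, Divisor.degree (Finsupp.single P (1 : ℤ) : Divisor k F) = 1 := by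
    intro P _
    rw [GAL.RED.degree_eq_sum, Finsupp.sum_single_index rfl]
  rw [Finset.sum_congr rfl h1, Finset.sum_const, nsmul_eq_mul, mul_one]

end Div

/-! ## the main theorem -/

section Main

variable {k F F' : Type*} [Field k] [Field F] [Field F'] [Algebra k F] [Algebra k F']
  [IsFF k F] [IsFF k F'] [IsAlgClosed k]
  (iF : F →+* LaurentSeries k) (iF' : F' →+* LaurentSeries k)
  (hiC : ∀ c : k, iF (algebraMap k F c) = HahnSeries.C c)
  (hiC' : ∀ c : k, iF' (algebraMap k F' c) = HahnSeries.C c)
  (α β : F →ₐ[k] F') (hα : α.toRingHom.IsIntegral) (hβ : β.toRingHom.IsIntegral)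
  (l : ℕ) [NeZero l] (hl : 2 ≤ l)
  (hiα : ∀ f, iF' (α f) = iF f) (hiβ : ∀ f, iF' (β f) = qExpand k l (iF f))

include hiC hiC' hl hiα hiβ in
/-- a family of functions with `div (α h_a) = div (β h_{s a})` consists of constants. -/
theorem divOf_eq_zero_of_family {X : Type*} (s : X → X) (h : X → F) (h0 : ∀ a, h a ≠ 0)
    (hd : ∀ a, divOf (K := k) (α (h a)) = divOf (β (h (s a)))) (a : X) :
    divOf (K := k) (h a) = 0 := by
  have h1 : ∀ a, ∃ c : k, α (h a) = algebraMap k F' c * β (h (s a)) := by
    intro a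
    obtain ⟨c, -, hc⟩ := S15.Cusp.exists_const_of_divOf_eq (K := k)
      ((map_ne_zero α).2 (h0 a)) ((map_ne_zero β).2 (h0 (s a))) (hd a)
    exact ⟨c, hc⟩
  choose c hc using h1
  have h2 : ∀ a, iF (h a) = HahnSeries.C (c a) * qExpand k l (iF (h (s a))) := by
    intro a
    rw [← hiα, hc a, map_mul, hiC', hiβ]
  have h3 := eq_C_of_family l hl s (fun a => iF (h a)) c h2 a
  have h4 : h a = algebraMap k F ((iF (h a)).coeff 0) := by
    apply iF.injective
    rw [hiC]
    exact h3
  rw [h4, divOf_algebraMap]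

include hiC hiC' hl hiα hiβ in
/-- **GRAPH.** -/
theorem const_on_nodes {X : Type*} (S : Finset (Place k F)) (ζ : Place k F → X) (s : X → X)
    (hs : Function.Injective s)
    (hS : ∀ z : Place k F', z.restrictAlong α hα ∈ S ↔ z.restrictAlong β hβ ∈ S)
    (heα : ∀ z : Place k F', z.restrictAlong α hα ∈ S → Place.ramificationIndexAlong α z = 1)
    (heβ : ∀ z : Place k F', z.restrictAlong β hβ ∈ S → Place.ramificationIndexAlong β z = 1)
    (hζ : ∀ z : Place k F', z.restrictAlong α hα ∈ S →
      ζ (z.restrictAlong β hβ) = s (ζ (z.restrictAlong α hα)))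
    (n n' : ℤ) (hn : n ≠ 0)
    (hdα : ∀ D : Divisor k F, Divisor.degree (Divisor.pullbackAlong α hα D) = n * Divisor.degree D)
    (hdβ : ∀ D : Divisor k F, Divisor.degree (Divisor.pullbackAlong β hβ D) = n' * Divisor.degree D)
    (hT : ∀ D : Divisor k F, Divisor.degree D = 0 →
      ∃ m : ℕ, m ≠ 0 ∧ ∃ h : F, h ≠ 0 ∧ m • D = divOf h) :
    ∀ P ∈ S, ∀ Q ∈ S, ζ P = ζ Q := by
  classical
  intro P hP Q hQ
  have hScard : (S.card : ℤ) ≠ 0 := by
    exact_mod_cast (Finset.card_pos.2 ⟨P, hP⟩).ne'
  set O : X → Finset (Place k F) := fun a => S.filter (fun R => ζ R = a) with hO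
  -- (F1), (F2)
  have F1 : ∀ a, Divisor.pullbackAlong α hα (ind (O a)) = Divisor.pullbackAlong β hβ (ind (O (s a))) := by
    intro a
    ext z
    rw [Divisor.pullbackAlong_apply, Divisor.pullbackAlong_apply, ind_apply, ind_apply]
    by_cases hz : z.restrictAlong α hα ∈ S
    · have hz' := (hS z).1 hz
      rw [heα z hz, heβ z hz']
      simp only [hO, Finset.mem_filter, hz, hz', true_and, hζ z hz, hs.eq_iff]
    · have hz' : z.restrictAlong β hβ ∉ S := fun h => hz ((hS z).2 h)
      simp only [hO, Finset.mem_filter, hz, hz', false_and, if_false, mul_zero]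
  have F2 : Divisor.pullbackAlong α hα (ind S) = Divisor.pullbackAlong β hβ (ind S) := by
    ext z
    rw [Divisor.pullbackAlong_apply, Divisor.pullbackAlong_apply, ind_apply, ind_apply]
    by_cases hz : z.restrictAlong α hα ∈ S
    · have hz' := (hS z).1 hz
      rw [heα z hz, heβ z hz', if_pos hz, if_pos hz']
    · have hz' : z.restrictAlong β hβ ∉ S := fun h => hz ((hS z).2 h)
      rw [if_neg hz, if_neg hz', mul_zero, mul_zero]
  have F4 : n = n' := by
    have := congrArg Divisor.degree F2
    rw [hdα, hdβ, degree_ind] at this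
    exact mul_right_cancel₀ hScard this
  have F5 : ∀ a, ((O a).card : ℤ) = ((O (s a)).card : ℤ) := by
    intro a
    have := congrArg Divisor.degree (F1 a)
    rw [hdα, hdβ, degree_ind, degree_ind, ← F4] at this
    exact mul_left_cancel₀ hn this
  set E : X → Divisor k F := fun a => (S.card : ℤ) • ind (O a) - ((O a).card : ℤ) • ind S with hE
  have F6 : ∀ a, Divisor.pullbackAlong α hα (E a) = Divisor.pullbackAlong β hβ (E (s a)) := by
    intro a
    simp only [hE, map_sub, map_zsmul]
    rw [F1 a, F2, F5 a]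
  have F7 : ∀ a, Divisor.degree (E a) = 0 := by
    intro a
    simp only [hE, map_sub, map_zsmul, degree_ind, smul_eq_mul]
    ring
  have F8 : ∀ a, a ∉ S.image ζ → E a = 0 := by
    intro a ha
    have h0 : O a = ∅ := by
      rw [hO]
      apply Finset.filter_eq_empty_iff.2
      intro R hR hRa
      exact ha (Finset.mem_image.2 ⟨R, hR, hRa⟩)
    simp only [hE, h0, Finset.card_empty, Nat.cast_zero, zero_smul, sub_zero]
    rw [ind, Finset.sum_empty, smul_zero]
  -- uniform exponent
  choose m hm0 h hh0 hmh using fun a => hT (E a) (F7 a)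
  set T := S.image ζ with hTdef
  set M : ℕ := ∏ b ∈ T, m b with hM
  have hM0 : M ≠ 0 := Finset.prod_ne_zero_iff.2 fun b _ => hm0 b
  set g : X → F := fun a => if a ∈ T then h a ^ (∏ b ∈ T.erase a, m b) else 1 with hg
  have hg0 : ∀ a, g a ≠ 0 := by
    intro a
    simp only [hg]
    split_ifs
    · exact pow_ne_zero _ (hh0 a)
    · exact one_ne_zero
  have hgd : ∀ a, divOf (K := k) (g a) = M • E a := by
    intro a
    simp only [hg]
    split_ifs with ha
    · rw [divOf_pow, ← hmh a, ← mul_smul, hM, ← Finset.mul_prod_erase T m ha, mul_comm]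
    · rw [F8 a ha, smul_zero, ← map_one (algebraMap k F), divOf_algebraMap]
  have key := divOf_eq_zero_of_family iF iF' hiC hiC' α β l hl hiα hiβ s g hg0 (by
    intro a
    rw [← pullbackAlong_divOf' α hα, ← pullbackAlong_divOf' β hβ, hgd, hgd, map_nsmul, map_nsmul,
      F6 a]) (ζ P)
  rw [hgd] at key
  have hE0 : E (ζ P) = 0 := by
    rcases smul_eq_zero.1 key with h1 | h1
    · exact absurd h1 hM0
    · exact h1
  have hPO : P ∈ O (ζ P) := Finset.mem_filter.2 ⟨hP, rfl⟩
  have e1 : E (ζ P) P = 0 := by rw [hE0]; rfl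
  have e2 : E (ζ P) Q = 0 := by rw [hE0]; rfl
  simp only [hE, Finsupp.sub_apply, Finsupp.smul_apply, ind_apply, if_pos hP, if_pos hQ, if_pos hPO,
    smul_eq_mul, mul_one] at e1 e2
  by_contra hne
  have hQO : Q ∉ O (ζ P) := by
    simp only [hO, Finset.mem_filter, not_and]
    intro _ h1
    exact hne h1.symm
  rw [if_neg hQO, mul_zero] at e2
  apply hScard
  linarith

end Main

end Fermat.Agent.S41.Graph
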